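import Mathlib
import Fermat.Agent.S44.L.TopProof2
import Fermat.Agent.S44.L.TopLemmas
import Fermat.Agent.S44.L.EisFormal

/-!
# PROGRAM MR (S44), strand L: the shared top cut of (L.SLOPE) and (L.NZ)

Statement-level file (helper88) with two compiled assemblies.  Both routes to the geometric
core (the étale cover route and the cover-free route over the ramified base) END in the
statements of this file.

Notation: `p = P.p`, `A` a valuation subring of `ℚ̄` over `p`, `κ` its residue field,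
`redField M A ⊆ κ((q))` the function field of the reduced curve of level `M`,
`D̄ = Δ̄ · (Δ̄^p)⁻¹` the reduction of the Eisenstein function `Δ(q) / Δ(q^p)`.

## (L.SLOPE)

* `SlopeMStatement` : the slope statement at the AUXILIARY level `M = 4 N'` (regular model with
  thickness-one nodes): for a reduction `f ∈ redField M A` of `ι R`, `p ∣ ord_w f` at the cusps
  `w` of level `M`, and there is `δ ∈ ℤ` with `p ∣ ord_w (f^12 D̄^(-δ))` at the finite places.
* `DescStatement`   : one level-doubling step `N ∣ 2 N` of the descent of "`p ∣ ord` at all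
  cusps / at all finite places" (degree `≤ 3 < p`).
* `EisStatement`    : the clauses of `Top.SlopeStatement` that concern `D` alone (landed:
  `EisRed.eisBar_slope_data`).
* `slopeStatement2_of_cut : EisStatement → DescStatement → SlopeMStatement → SlopeStatement2`.

## (L.NZ)

* `NZCoreStatement` : if the reductions of `ι R` on BOTH components (`ι R` and `w (ι R)`, `w`
  an Atkin–Lehner swap) are `p`-th powers in the reduced field, contradiction
  ("toric ⟹ `R ∈ ⟨T⟩`").
* `ThetaKerStatement`, `SwapStatement`, `ThetaSwapStatement` : the landed inputs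
  (`ThetaKer.exists_pow_of_theta_eq_zero`, `S37.SwapGal.exists_swap_gal_j`,
  `NormRed.theta_zero_iff`), as `Prop`s so that this file stays light.
* `nzStatement_of_cut : RedStatement → ThetaKerStatement → SwapStatement → ThetaSwapStatement →
  NZCoreStatement → NZStatement`.
-/

set_option autoImplicit false

open WeierstrassCurve WeierstrassCurve.Affine WeierstrassCurve.Affine.Point
open HahnSeries ModularCurve AlgebraicCurve

namespace Fermat.Agent.S44.L.Slope.Cut

open Fermat.Agent.S30 Fermat.Agent.S30.Producer Fermat.Agent.S44.Contract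
open Fermat.Agent.S44.L.Top Fermat.Agent.S44.L.TopProof2 Fermat.Agent.S44.L

/-! ### Monotonicity of the reduced field in the level -/

/-- `Fb M ≤ Fb (M * k)`. -/
theorem fb_le_mul (M k : ℕ) [NeZero M] [NeZero k] : E4.Fb M ≤ E4.Fb (M * k) := by
  intro x hx
  have h := SetLike.coe_mem (heckeAlphaBar Qb M k ⟨x, hx⟩)
  rwa [coe_heckeAlphaBar] at h

/-- `redField N A ≤ redField (2 * N) A`. -/
theorem redField_le_two (N : ℕ) [NeZero N] (A : ValuationSubring Qb) :
    redField N A ≤ redField (2 * N) A := by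
  have hle : E4.Fb N ≤ E4.Fb (2 * N) := by
    rw [Nat.mul_comm 2 N]
    exact fb_le_mul N 2
  unfold redField
  refine Subfield.closure_mono ?_
  rintro φ ⟨U, V, hU, hV, hV0, hφ⟩
  exact ⟨U, V, hle hU, hle hV, hV0, hφ⟩

/-! ### (L.SLOPE): the bricks -/

/-- **(SLOPE.EIS)** The Eisenstein function `D = Δ(q) / Δ(q^p)` of level `N' p`: nonzero, with
reduction `D̄ = Δ̄ (Δ̄^p)⁻¹` in the reduced field of level `N'`, and `T_ℓ D ~ D^(ℓ+1)`. -/
def EisStatement : Prop :=
  ∀ (p N' : ℕ) [NeZero N'] [NeZero p], p.Prime → 5 ≤ p → ¬ p ∣ N' →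
    ∀ A : ValuationSubring Qb, A.LiesOverPrime p →
    ∃ (D : FN (N' * p)) (Dbar : redField N' A),
      (Dbar : LaurentSeries (IsLocalRing.ResidueField A))
        = EisFormal.deltaL (IsLocalRing.ResidueField A)
          * (EisFormal.deltaL (IsLocalRing.ResidueField A) ^ p)⁻¹ ∧
      D ≠ 0 ∧
      RedAt (N' * p) A D (Dbar : LaurentSeries (IsLocalRing.ResidueField A)) ∧
      (∀ ℓ : ℕ, ℓ.Prime → ¬ ℓ ∣ N' * p → ∃ (c : Qb) (k : FN (N' * p)),
        E4.heckeFb (N' * p) ℓ D = algebraMap Qb (FN (N' * p)) c * D ^ (ℓ + 1) * k ^ p)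

/-- **(SLOPE.DESC)** One level-doubling step of the descent: for `g` in the reduced field of
level `N`, "`p ∣ ord_w g` at every cusp (resp. at every finite place) of level `2 N`" implies
the same at level `N`. -/
def DescStatement : Prop :=
  ∀ (p N N2 : ℕ) [NeZero N] [NeZero p], N2 = 2 * N → p.Prime → 5 ≤ p → ¬ p ∣ N →
    ∀ A : ValuationSubring Qb, A.LiesOverPrime p →
    ∀ (g : redField N A) (g2 : redField N2 A),
      (g2 : LaurentSeries (IsLocalRing.ResidueField A))
        = (g : LaurentSeries (IsLocalRing.ResidueField A)) → g ≠ 0 →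
      ((∀ w2 : ValuationSubring (redField N2 A), ¬ IsFinitePl N2 A w2 → PDivAt p w2 g2) →
        ∀ w : ValuationSubring (redField N A), ¬ IsFinitePl N A w → PDivAt p w g) ∧
      ((∀ w2 : ValuationSubring (redField N2 A), IsFinitePl N2 A w2 → PDivAt p w2 g2) →
        ∀ w : ValuationSubring (redField N A), IsFinitePl N A w → PDivAt p w g)

/-- **(SLOPE.M)** The slope statement at the auxiliary level `M = 4 N'`.  For every reduction
`f` of `ι R` in the reduced field of level `M` and `D̄ = Δ̄ (Δ̄^p)⁻¹`: `p ∣ ord_w f` at every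
cusp `w` of level `M`, and there is `δ ∈ ℤ` with `p ∣ ord_w (f^12 D̄^(-δ))` at every finite
place `w` of level `M`. -/
def SlopeMStatement : Prop :=
  ∀ (P : FreyPackage) (N' M : ℕ) [NeZero N'] [NeZero P.p] (W : WeierstrassCurve ℤ),
    M = 4 * N' → ¬ P.p ∣ N' → Squarefree N' →
    ∀ A : ValuationSubring Qb, A.LiesOverPrime P.p →
    ∀ ι : (P.freyCurve⁄Qb).Point → FN (N' * P.p), IsNewEmb P N' W ι →
    ∀ (T R : (P.freyCurve⁄Qb).Point) (ζ b : Qb), EShapeData P A T R ζ b →
    ∀ f Db : redField M A,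
      RedAt (N' * P.p) A (ι R) (f : LaurentSeries (IsLocalRing.ResidueField A)) →
      (Db : LaurentSeries (IsLocalRing.ResidueField A))
        = EisFormal.deltaL (IsLocalRing.ResidueField A)
          * (EisFormal.deltaL (IsLocalRing.ResidueField A) ^ P.p)⁻¹ →
      (∀ w : ValuationSubring (redField M A), ¬ IsFinitePl M A w → PDivAt P.p w f) ∧
      ∃ δ : ℤ, ∀ w : ValuationSubring (redField M A), IsFinitePl M A w →
        PDivAt P.p w (f ^ 12 * Db ^ (-δ))

/-! ### (L.SLOPE): the assembly -/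

/-- **`SlopeStatement2` from the cut.** -/
theorem slopeStatement2_of_cut (hEis : EisStatement) (hDesc : DescStatement)
    (hM : SlopeMStatement) : SlopeStatement2 := by
  intro P N' _ _ W hpN' hsq A hA ι hι
  have hp : P.p.Prime := P.pp
  have hp5 : 5 ≤ P.p := P.hp5
  obtain ⟨D, Dbar, hDb, hD0, hDred, hDhecke⟩ := hEis P.p N' hp hp5 hpN' A hA
  have hp12 : ¬ P.p ∣ 12 := by
    intro hdvd
    rcases (Nat.Prime.dvd_mul hp).mp (show P.p ∣ 4 * 3 from hdvd) with h | h
    · have := Nat.le_of_dvd (by norm_num) h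
      omega
    · have := Nat.le_of_dvd (by norm_num) h
      omega
  refine ⟨D, Dbar, 12, hD0, by norm_num, hp12, hDred, hDhecke, ?_⟩
  intro T R ζ b hdata f hf
  -- the two auxiliary levels
  have hN2 : NeZero (2 * N') := ⟨by have := NeZero.ne N'; omega⟩
  have h42 : 4 * N' = 2 * (2 * N') := by ring
  have hp2N : ¬ P.p ∣ 2 * N' := by
    intro hdvd
    rcases (Nat.Prime.dvd_mul hp).mp hdvd with h | h
    · have := Nat.le_of_dvd (by norm_num) h
      omega
    · exact hpN' h
  have hle2 : redField N' A ≤ redField (2 * N') A := redField_le_two N' A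
  have hle4 : redField (2 * N') A ≤ redField (4 * N') A := by
    rw [h42]
    exact redField_le_two (2 * N') A
  -- lifts of `f` and `D̄` (opaque, with explicit coercion equations: no `rfl` on powers)
  obtain ⟨f2, hf2⟩ : ∃ f2 : redField (2 * N') A,
      (f2 : LaurentSeries (IsLocalRing.ResidueField A)) = f := ⟨⟨f, hle2 f.2⟩, rfl⟩
  obtain ⟨f4, hf4⟩ : ∃ f4 : redField (4 * N') A,
      (f4 : LaurentSeries (IsLocalRing.ResidueField A)) = f := ⟨⟨f, hle4 (hle2 f.2)⟩, rfl⟩
  obtain ⟨D2, hD2⟩ : ∃ D2 : redField (2 * N') A,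
      (D2 : LaurentSeries (IsLocalRing.ResidueField A)) = Dbar := ⟨⟨Dbar, hle2 Dbar.2⟩, rfl⟩
  obtain ⟨D4, hD4⟩ : ∃ D4 : redField (4 * N') A,
      (D4 : LaurentSeries (IsLocalRing.ResidueField A)) = Dbar :=
    ⟨⟨Dbar, hle4 (hle2 Dbar.2)⟩, rfl⟩
  have hfco : (f : LaurentSeries (IsLocalRing.ResidueField A)) ≠ 0 := TopLemmas.RedAt.ne_zero hf
  have hDco : (Dbar : LaurentSeries (IsLocalRing.ResidueField A)) ≠ 0 :=
    TopLemmas.RedAt.ne_zero hDred
  have hf0 : f ≠ 0 := TopLemmas.coe_ne_zero_redField.1 hfco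
  have hD0' : Dbar ≠ 0 := TopLemmas.coe_ne_zero_redField.1 hDco
  have hf20 : f2 ≠ 0 := TopLemmas.coe_ne_zero_redField.1 (by rw [hf2]; exact hfco)
  have hD20 : D2 ≠ 0 := TopLemmas.coe_ne_zero_redField.1 (by rw [hD2]; exact hDco)
  have hf4red : RedAt (N' * P.p) A (ι R) (f4 : LaurentSeries (IsLocalRing.ResidueField A)) := by
    rw [hf4]
    exact hf
  obtain ⟨hcusp4, δ, hfin4⟩ :=
    hM P N' (4 * N') W rfl hpN' hsq A hA ι hι T R ζ b hdata f4 D4 hf4red (hD4.trans hDb)
  -- the coercion equations of the two products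
  have hg42 : ((f4 ^ 12 * D4 ^ (-δ) : redField (4 * N') A) :
      LaurentSeries (IsLocalRing.ResidueField A))
      = ((f2 ^ 12 * D2 ^ (-δ) : redField (2 * N') A) :
          LaurentSeries (IsLocalRing.ResidueField A)) := by
    rw [TopLemmas.coe_mul_redField, TopLemmas.coe_pow_redField, TopLemmas.coe_zpow_redField,
      TopLemmas.coe_mul_redField, TopLemmas.coe_pow_redField, TopLemmas.coe_zpow_redField,
      hf4, hD4, hf2, hD2]
  have hg21 : ((f2 ^ 12 * D2 ^ (-δ) : redField (2 * N') A) :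
      LaurentSeries (IsLocalRing.ResidueField A))
      = ((f ^ 12 * Dbar ^ (-δ) : redField N' A) :
          LaurentSeries (IsLocalRing.ResidueField A)) := by
    rw [TopLemmas.coe_mul_redField, TopLemmas.coe_pow_redField, TopLemmas.coe_zpow_redField,
      TopLemmas.coe_mul_redField, TopLemmas.coe_pow_redField, TopLemmas.coe_zpow_redField,
      hf2, hD2]
  refine ⟨?_, δ, ?_⟩
  · -- the cusps
    have hcusp2 := (hDesc P.p (2 * N') (4 * N') h42 hp hp5 hp2N A hA f2 f4
      (hf4.trans hf2.symm) hf20).1 hcusp4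
    exact (hDesc P.p N' (2 * N') rfl hp hp5 hpN' A hA f f2 hf2 hf0).1 hcusp2
  · -- the finite places
    have hg0 : f ^ 12 * Dbar ^ (-δ) ≠ 0 := mul_ne_zero (pow_ne_zero _ hf0) (zpow_ne_zero _ hD0')
    have hg20 : f2 ^ 12 * D2 ^ (-δ) ≠ 0 := mul_ne_zero (pow_ne_zero _ hf20) (zpow_ne_zero _ hD20)
    have hfin2 := (hDesc P.p (2 * N') (4 * N') h42 hp hp5 hp2N A hA
      (f2 ^ 12 * D2 ^ (-δ)) (f4 ^ 12 * D4 ^ (-δ)) hg42 hg20).2 hfin4
    exact (hDesc P.p N' (2 * N') rfl hp hp5 hpN' A hA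
      (f ^ 12 * Dbar ^ (-δ)) (f2 ^ 12 * D2 ^ (-δ)) hg21 hg0).2 hfin2

/-! ### (L.NZ): the bricks -/

/-- **(NZ.a)** `θ f = 0` for `f` in the reduced field implies `f = g ^ p`
(landed: `ThetaKer.exists_pow_of_theta_eq_zero`). -/
def ThetaKerStatement : Prop :=
  ∀ (p N : ℕ) [NeZero N], p.Prime → ∀ A : ValuationSubring Qb, A.LiesOverPrime p →
    ∀ f : redField N A,
      (∀ n : ℤ, (n : IsLocalRing.ResidueField A)
        * (f : LaurentSeries (IsLocalRing.ResidueField A)).coeff n = 0) →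
      ∃ g : redField N A, f = g ^ p

/-- An Atkin–Lehner swap at `ℓ` (landed: `S37.SwapGal.exists_swap_gal_j`). -/
def SwapStatement : Prop :=
  ∀ (N ℓ : ℕ) [NeZero N] [NeZero ℓ], ℓ.Prime → ¬ ℓ ∣ N →
    ∃ w : FN (N * ℓ) ≃ₐ[Qb] FN (N * ℓ),
      (∀ a : FN N, w (heckeAlphaBar Qb N ℓ a) = heckeBetaBar Qb N ℓ a) ∧
      (∀ a : FN N, w (heckeBetaBar Qb N ℓ a) = heckeAlphaBar Qb N ℓ a) ∧
      (∀ y : FN (N * ℓ), w (w y) = y)

/-- **(NZ.b)** For `p`-new classes, `θ f = 0 ↔ θ f₀ = 0`, `f₀` the reduction on the other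
component (landed: `NormRed.theta_zero_iff`). -/
def ThetaSwapStatement : Prop :=
  ∀ (P : FreyPackage) (N' : ℕ) [NeZero N'] [NeZero P.p] (W : WeierstrassCurve ℤ),
    ¬ P.p ∣ N' →
    ∀ A : ValuationSubring Qb, A.LiesOverPrime P.p →
    ∀ ι : (P.freyCurve⁄Qb).Point → FN (N' * P.p), IsNewEmb P N' W ι →
    ∀ w : FN (N' * P.p) ≃ₐ[Qb] FN (N' * P.p),
      (∀ a : FN N', w (heckeAlphaBar Qb N' P.p a) = heckeBetaBar Qb N' P.p a) →
      (∀ a : FN N', w (heckeBetaBar Qb N' P.p a) = heckeAlphaBar Qb N' P.p a) →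
      (∀ y : FN (N' * P.p), w (w y) = y) →
    ∀ Q : (P.freyCurve⁄Qb).Point, P.p • Q = 0 →
    ∀ f f₀ : LaurentSeries (IsLocalRing.ResidueField A),
      RedAt (N' * P.p) A (ι Q) f → RedAt (N' * P.p) A (w (ι Q)) f₀ →
      ((∀ n : ℤ, (n : IsLocalRing.ResidueField A) * f.coeff n = 0) ↔
        ∀ n : ℤ, (n : IsLocalRing.ResidueField A) * f₀.coeff n = 0)

/-- **(NZ.CORE)** "Toric implies `R ∈ ⟨T⟩`": for an `EShape` datum and a `p`-new embedding, the
reductions of `ι R` on the two components (`ι R` at `∞`, `w (ι R)` for an Atkin–Lehner swap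
`w`) are not both `p`-th powers in the reduced field of level `N'`. -/
def NZCoreStatement : Prop :=
  ∀ (P : FreyPackage) (N' : ℕ) [NeZero N'] [NeZero P.p] (W : WeierstrassCurve ℤ),
    ¬ P.p ∣ N' → Squarefree N' →
    ∀ A : ValuationSubring Qb, A.LiesOverPrime P.p →
    ∀ ι : (P.freyCurve⁄Qb).Point → FN (N' * P.p), IsNewEmb P N' W ι →
    ∀ (T R : (P.freyCurve⁄Qb).Point) (ζ b : Qb), EShapeData P A T R ζ b →
    ∀ w : FN (N' * P.p) ≃ₐ[Qb] FN (N' * P.p),
      (∀ a : FN N', w (heckeAlphaBar Qb N' P.p a) = heckeBetaBar Qb N' P.p a) →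
      (∀ a : FN N', w (heckeBetaBar Qb N' P.p a) = heckeAlphaBar Qb N' P.p a) →
      (∀ y : FN (N' * P.p), w (w y) = y) →
    ∀ g g₀ : redField N' A,
      RedAt (N' * P.p) A (ι R) ((g : LaurentSeries (IsLocalRing.ResidueField A)) ^ P.p) →
      RedAt (N' * P.p) A (w (ι R))
        ((g₀ : LaurentSeries (IsLocalRing.ResidueField A)) ^ P.p) → False

/-! ### (L.NZ): the assembly -/

/-- **`NZStatement` from the cut.** -/
theorem nzStatement_of_cut (hRed : RedStatement) (hTK : ThetaKerStatement)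
    (hSwap : SwapStatement) (hTS : ThetaSwapStatement) (hCore : NZCoreStatement) :
    NZStatement := by
  intro P N' _ _ W hpN' hsq A hA ι hι T R ζ b hdata f hf
  by_contra hθ
  simp only [not_exists, not_not] at hθ
  have hp : P.p.Prime := P.pp
  have hp5 : 5 ≤ P.p := P.hp5
  have hpR : P.p • R = 0 := hdata.2.1
  have hx0 : ι R ≠ 0 := hι.ne_zero R hpR
  -- a reduction of `ι R` in the reduced field, with `θ = 0`
  obtain ⟨f', hf'⟩ := hRed P.p N' hp hp5 hpN' A hA (ι R) hx0
  obtain ⟨e, -, hee⟩ := TopLemmas.RedAt.unique hf' hf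
  have hθ' : ∀ n : ℤ, (n : IsLocalRing.ResidueField A)
      * (f' : LaurentSeries (IsLocalRing.ResidueField A)).coeff n = 0 := by
    intro n
    rw [hee, HahnSeries.C_mul_eq_smul, HahnSeries.coeff_smul, smul_eq_mul, mul_left_comm,
      hθ n, mul_zero]
  obtain ⟨g, hg⟩ := hTK P.p N' hp A hA f' hθ'
  -- the other component
  obtain ⟨w, hwα, hwβ, hww⟩ := hSwap N' P.p hp hpN'
  have hwx0 : w (ι R) ≠ 0 := fun h => hx0 (by simpa using congrArg w.symm h)
  obtain ⟨f₀', hf₀'⟩ := hRed P.p N' hp hp5 hpN' A hA (w (ι R)) hwx0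
  have hθ₀ := (hTS P N' W hpN' A hA ι hι w hwα hwβ hww R hpR _ _ hf' hf₀').1 hθ'
  obtain ⟨g₀, hg₀⟩ := hTK P.p N' hp A hA f₀' hθ₀
  refine hCore P N' W hpN' hsq A hA ι hι T R ζ b hdata w hwα hwβ hww g g₀ ?_ ?_
  · have h1 : (f' : LaurentSeries (IsLocalRing.ResidueField A))
        = (g : LaurentSeries (IsLocalRing.ResidueField A)) ^ P.p := by
      rw [hg]
      exact TopLemmas.coe_pow_redField g P.p
    rw [← h1]
    exact hf'
  · have h1 : (f₀' : LaurentSeries (IsLocalRing.ResidueField A))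
        = (g₀ : LaurentSeries (IsLocalRing.ResidueField A)) ^ P.p := by
      rw [hg₀]
      exact TopLemmas.coe_pow_redField g₀ P.p
    rw [← h1]
    exact hf₀'

end Fermat.Agent.S44.L.Slope.Cut
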