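import Mathlib
import Fermat.Agent.S44.L.Slope.Cut
import Fermat.Agent.S44.L.CentreU4

/-!
# PROGRAM MR (S44), strand L: `Cut.SlopeMStatement` from chart-level local forms

The seam between the places of the reduced function field `redField M A` (`M = 4 N'`) and the
closed points of a chart of the level-`M p` model.  Below this file NO valuation subring of the
reduced field appears: the geometric core delivers local forms at maximal ideals of two chart
rings only.

* `UnitAt r y f g` : "`f = unit_y · g`": `f * r b = r a * g` with `a, b ∉ y`.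
* `SlopeLocStatement` : for the data of `Cut.SlopeMStatement` there are two charts
  `r : C → redField M A` (image containing the constants `κ₀` and `ū = u₄ mod p`, integral over
  `κ₀[ū]`) and `r' : C' → redField M A` (the same with `ū⁻¹`), and `δ ∈ ℤ`, such that
  - (FIN) at every maximal `y ⊇ ker r` not containing the coordinate `U` nor `U + 16`:
    `f = unit_y · τ^j · h^p`, `D̄ = unit_y · τ^e · h'^p` with `p ∣ 12 j - δ e`
    (node: `τ` the local equation of the other component, `e = 12`, `j ≡ δ`;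
    smooth point: `τ = 1`, `j = e = 0`);
  - (CUSP) at every maximal `y ⊇ ker r` containing `U` or `U + 16`: `f = unit_y · h^p`;
  - (INF) at every maximal `y ⊇ ker r'` containing the coordinate `1/U`: `f = unit_y · h^p`.
* `slopeMStatement_of_loc : SlopeLocStatement → Cut.SlopeMStatement`.
* `mem_redField_of_pow_mem` : a series `h` with `h ^ p ∈ redField N A` lies in `redField N A`.
-/

set_option autoImplicit false
set_option linter.style.haveILetI false

open WeierstrassCurve WeierstrassCurve.Affine WeierstrassCurve.Affine.Point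
open HahnSeries ModularCurve AlgebraicCurve

namespace Fermat.Agent.S44.L.Slope.Loc

open Fermat.Agent.S30 Fermat.Agent.S30.Producer Fermat.Agent.S44.Contract
open Fermat.Agent.S44.L.Top Fermat.Agent.S44.L.TopProof2 Fermat.Agent.S44.L

local notation "Qb" => AlgebraicClosure ℚ

/-- "`f = unit_y · g`" on a chart `r : C → k`: `f * r b = r a * g` with `a, b ∉ y`. -/
def UnitAt {k : Type*} [Field k] {C : Type*} [CommRing C] (r : C →+* k) (y : Ideal C)
    (f g : k) : Prop :=
  ∃ a b : C, a ∉ y ∧ b ∉ y ∧ f * r b = r a * g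

/-- **The chart-level form of the slope statement at the auxiliary level `M = 4 N'`.** -/
def SlopeLocStatement : Prop :=
  ∀ (P : FreyPackage) (N' M : ℕ) [NeZero N'] [NeZero M] [NeZero P.p] (W : WeierstrassCurve ℤ)
    (h4 : 4 ∣ M), M = 4 * N' → ¬ P.p ∣ N' → Squarefree N' →
    ∀ A : ValuationSubring Qb, A.LiesOverPrime P.p →
    ∀ ι : (P.freyCurve⁄Qb).Point → FN (N' * P.p), IsNewEmb P N' W ι →
    ∀ (T R : (P.freyCurve⁄Qb).Point) (ζ b : Qb), EShapeData P A T R ζ b →
    ∀ f Db : redField M A,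
      RedAt (N' * P.p) A (ι R) (f : LaurentSeries (IsLocalRing.ResidueField A)) →
      (Db : LaurentSeries (IsLocalRing.ResidueField A))
        = EisFormal.deltaL (IsLocalRing.ResidueField A)
          * (EisFormal.deltaL (IsLocalRing.ResidueField A) ^ P.p)⁻¹ →
      ∃ (κ₀ : Subfield (redField M A)) (C : Type) (_ : CommRing C) (r : C →+* redField M A)
        (C' : Type) (_ : CommRing C') (r' : C' →+* redField M A) (δ : ℤ),
        (∀ s ∈ κ₀, ∃ e : IsLocalRing.ResidueField A,
          ((s : redField M A) : LaurentSeries (IsLocalRing.ResidueField A)) = HahnSeries.C e) ∧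
        -- the finite chart
        (∀ s ∈ κ₀, ∃ c : C, r c = s) ∧ (∃ c : C, r c = CentreU4.ub M A h4) ∧
        (∀ c : C, IsIntegral ↥(Algebra.adjoin κ₀ {CentreU4.ub M A h4}) (r c)) ∧
        -- the chart at infinity
        (∀ s ∈ κ₀, ∃ c : C', r' c = s) ∧ (∃ c : C', r' c = (CentreU4.ub M A h4)⁻¹) ∧
        (∀ c : C', IsIntegral ↥(Algebra.adjoin κ₀ {(CentreU4.ub M A h4)⁻¹}) (r' c)) ∧
        -- (FIN) non-cuspidal closed points of the finite chart
        (∀ y : Ideal C, y.IsMaximal → RingHom.ker r ≤ y →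
          (∀ c : C, r c = CentreU4.ub M A h4 → c ∉ y) →
          (∀ c : C, r c = CentreU4.ub M A h4 + 16 → c ∉ y) →
          ∃ (τ h h' : redField M A) (j e : ℤ), τ ≠ 0 ∧ (P.p : ℤ) ∣ 12 * j - δ * e ∧
            UnitAt r y f (τ ^ j * h ^ P.p) ∧ UnitAt r y Db (τ ^ e * h' ^ P.p)) ∧
        -- (CUSP) the cusps `0`, `-16` of the `u₄`-line
        (∀ y : Ideal C, y.IsMaximal → RingHom.ker r ≤ y →
          ((∀ c : C, r c = CentreU4.ub M A h4 → c ∈ y) ∨
            (∀ c : C, r c = CentreU4.ub M A h4 + 16 → c ∈ y)) →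
          ∃ h : redField M A, UnitAt r y f (h ^ P.p)) ∧
        -- (INF) the cusp `∞` of the `u₄`-line
        (∀ y : Ideal C', y.IsMaximal → RingHom.ker r' ≤ y →
          (∀ c : C', r' c = (CentreU4.ub M A h4)⁻¹ → c ∈ y) →
          ∃ h : redField M A, UnitAt r' y f (h ^ P.p))

/-- A Laurent series whose `p`-th power lies in the reduced field lies in the reduced field
(for producers of `SlopeLocStatement` whose `p`-th roots are a priori only series). -/
theorem mem_redField_of_pow_mem {p N : ℕ} [NeZero N] (hp : p.Prime) {A : ValuationSubring Qb}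
    (hA : A.LiesOverPrime p) (h : LaurentSeries (IsLocalRing.ResidueField A))
    (hh : h ^ p ∈ redField N A) : h ∈ redField N A := by
  haveI : Fact p.Prime := ⟨hp⟩
  haveI : CharP (IsLocalRing.ResidueField A) p := Kappa.charP_residueField hp hA
  haveI : CharP (LaurentSeries (IsLocalRing.ResidueField A)) p :=
    charP_of_injective_algebraMap
      (algebraMap (IsLocalRing.ResidueField A)
        (LaurentSeries (IsLocalRing.ResidueField A))).injective p
  obtain ⟨g, hg⟩ := ThetaKer.exists_pow_of_theta_eq_zero p N hp A hA ⟨h ^ p, hh⟩ (by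
    intro n
    show (n : IsLocalRing.ResidueField A) * (h ^ p).coeff n = 0
    by_cases hn : (p : ℤ) ∣ n
    · rw [(CharP.intCast_eq_zero_iff (IsLocalRing.ResidueField A) p n).2 hn, zero_mul]
    · have h0 : (h ^ p).coeff n = 0 := by
        rw [← Congr.expand_coeffMap_frobenius p hp.pos h]
        exact Congr.coeff_expand_of_not_dvd p hp.pos _ hn
      rw [h0, mul_zero])
  have h1 : h ^ p = (g : LaurentSeries (IsLocalRing.ResidueField A)) ^ p :=
    congrArg (fun t : redField N A => (t : LaurentSeries (IsLocalRing.ResidueField A))) hg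
  have h2 : h = (g : LaurentSeries (IsLocalRing.ResidueField A)) :=
    frobenius_inj (LaurentSeries (IsLocalRing.ResidueField A)) p h1
  rw [h2]
  exact g.2

/-- The exponent identity of the assembly. -/
theorem key_identity {k : Type*} [Field k] (p : ℕ) {u u' τ h h' : k} (hτ : τ ≠ 0)
    {j e δ m : ℤ} (hm : 12 * j - δ * e = (p : ℤ) * m) :
    (u * (τ ^ j * h ^ p)) ^ 12 * (u' * (τ ^ e * h' ^ p)) ^ (-δ)
      = u ^ 12 * u' ^ (-δ) * (τ ^ m) ^ p * (h ^ 12 * h' ^ (-δ)) ^ p := by
  have h1 : (τ ^ j) ^ 12 * (τ ^ e) ^ (-δ) = (τ ^ m) ^ p := by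
    rw [← zpow_natCast (τ ^ j) 12, ← zpow_mul, ← zpow_mul, ← zpow_add₀ hτ, ← zpow_natCast (τ ^ m) p,
      ← zpow_mul]
    congr 1
    push_cast
    linarith
  have h2 : (h ^ p) ^ 12 * (h' ^ p) ^ (-δ) = (h ^ 12 * h' ^ (-δ)) ^ p := by
    rw [mul_pow, ← pow_mul, ← pow_mul, mul_comm p 12, ← zpow_natCast h' p, ← zpow_mul,
      ← zpow_natCast (h' ^ (-δ)) p, ← zpow_mul, mul_comm (p : ℤ) (-δ)]
  calc (u * (τ ^ j * h ^ p)) ^ 12 * (u' * (τ ^ e * h' ^ p)) ^ (-δ)
      = u ^ 12 * u' ^ (-δ) * ((τ ^ j) ^ 12 * (τ ^ e) ^ (-δ))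
          * ((h ^ p) ^ 12 * (h' ^ p) ^ (-δ)) := by
        rw [mul_pow, mul_pow, mul_zpow, mul_zpow]
        ring
    _ = u ^ 12 * u' ^ (-δ) * (τ ^ m) ^ p * (h ^ 12 * h' ^ (-δ)) ^ p := by rw [h1, h2]

/-- `f = unit · g` at the centre of `w`. -/
theorem exists_unit_of_unitAt {k : Type*} [Field k] (w : ValuationSubring k) {C : Type*}
    [CommRing C] (r : C →+* k) (y : Ideal C) (hker : RingHom.ker r ≤ y)
    (hy : ∀ c : C, r c ∈ w) (hy' : ∀ c : C, c ∉ y → (r c)⁻¹ ∈ w) {f g : k}
    (h : UnitAt r y f g) : ∃ u : k, u ∈ w ∧ u⁻¹ ∈ w ∧ f = u * g := by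
  obtain ⟨a, b, ha, hb, hf⟩ := h
  have hb0 : r b ≠ 0 := fun h0 => hb (hker h0)
  refine ⟨r a * (r b)⁻¹, w.mul_mem _ _ (hy a) (hy' b hb), ?_, ?_⟩
  · rw [mul_inv, inv_inv]
    exact w.mul_mem _ _ (hy' a ha) (hy b)
  · field_simp
    rw [hf]

/-- **`Cut.SlopeMStatement` from the chart-level local forms.** -/
theorem slopeMStatement_of_loc (hloc : SlopeLocStatement) : Cut.SlopeMStatement := by
  intro P N' M _ _ W hM hpN' hsq A hA ι hι T R ζ b hdata f Db hf hDb
  have hM0 : NeZero M := ⟨by rw [hM]; exact mul_ne_zero (by norm_num) (NeZero.ne N')⟩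
  have h4 : 4 ∣ M := by rw [hM]; exact dvd_mul_right 4 N'
  have hp : P.p.Prime := P.pp
  have hp2 : P.p ≠ 2 := by
    have := P.hp5
    omega
  obtain ⟨κ₀, C, instC, r, C', instC', r', δ, hκ₀, hκr, hur, hint, hκr', hur', hint', hfin,
    hcusp, hinf⟩ := hloc P N' M W h4 hM hpN' hsq A hA ι hι T R ζ b hdata f Db hf hDb
  refine ⟨?_, δ, ?_⟩
  · -- the cusps
    intro w hw
    by_cases hu : CentreU4.ub M A h4 ∈ w
    · obtain ⟨y, hmax, hker, h1, h2, -, hc⟩ :=
        CentreU4.exists_centre_cusp hp hA hp2 h4 κ₀ hκ₀ w hw hu r hκr hur hint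
      obtain ⟨h, a, b, ha, hb, hfab⟩ := hcusp y hmax hker hc
      exact Centre.pDivAt_of_centre w r y hker h1 h2 f h a b ha hb hfab
    · obtain ⟨y, hmax, hker, h1, h2, -, hc⟩ :=
        CentreU4.exists_centre_inf hp hA h4 κ₀ hκ₀ w hu r' hκr' hur' hint'
      obtain ⟨h, a, b, ha, hb, hfab⟩ := hinf y hmax hker hc
      exact Centre.pDivAt_of_centre w r' y hker h1 h2 f h a b ha hb hfab
  · -- the finite places
    intro w hw
    by_cases htop : w = ⊤
    · rw [htop]
      exact ⟨f ^ 12 * Db ^ (-δ), 1, by rw [one_pow, mul_one], trivial, trivial⟩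
    · obtain ⟨y, hmax, hker, h1, h2, -, hcU, hcU16⟩ :=
        CentreU4.exists_centre_finite hp hA hp2 h4 κ₀ hκ₀ w htop hw r hκr hur hint
      obtain ⟨τ, h, h', j, e, hτ, ⟨m, hm⟩, hfU, hDU⟩ := hfin y hmax hker hcU hcU16
      obtain ⟨u, hu, hu', hfu⟩ := exists_unit_of_unitAt w r y hker h1 h2 hfU
      obtain ⟨u', hv, hv', hDu⟩ := exists_unit_of_unitAt w r y hker h1 h2 hDU
      rw [hfu, hDu, key_identity P.p hτ hm]
      exact TopLemmas.PDivAt.mul (TopLemmas.PDivAt.mul (TopLemmas.PDivAt.mul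
        (TopLemmas.PDivAt.pow (TopLemmas.PDivAt.of_unit hu hu') 12)
        (TopLemmas.PDivAt.zpow (TopLemmas.PDivAt.of_unit hv hv') (-δ)))
        (TopLemmas.PDivAt.pow_self _)) (TopLemmas.PDivAt.pow_self _)

end Fermat.Agent.S44.L.Slope.Loc
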