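import Mathlib
import Fermat.Agent.S44.L.Slope.Cut
import Fermat.Agent.S44.L.Red
import Fermat.Agent.S44.L.Hecke
import Fermat.Agent.S44.L.Kappa
import Fermat.Agent.S44.L.EisRed
import Fermat.Agent.S44.L.ThetaKer
import Fermat.Agent.S44.L.NormRed
import Fermat.Agent.S44.L.DescExit
import Fermat.Agent.S44.H.Exit
import Fermat.Agent.S37.SwapGal

/-!
# PROGRAM MR (S44), strand L: the exit of the shared top cut

`S44/L/Slope/Cut.lean` keeps four of its inputs as `Prop`s "so that the file stays light".
This file closes them with the landed theorems and wires the whole strand: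

* `eisStatement`       : `Cut.EisStatement`       (`EisRed.eisBar_slope_data` at `Red.redStatement`);
* `thetaKerStatement`  : `Cut.ThetaKerStatement`  (`ThetaKer.exists_pow_of_theta_eq_zero`);
* `swapStatement`      : `Cut.SwapStatement`      (`S37.SwapGal.exists_swap_gal_j`);
* `thetaSwapStatement` : `Cut.ThetaSwapStatement` (`NormRed.theta_zero_iff`);
* `slopeStatement2_of_core : DescStatement → SlopeMStatement → SlopeStatement2`;
* `nzStatement_of_core     : NZCoreStatement → NZStatement`;
* `lStatement_of_core : DescStatement → SlopeMStatement → NZCoreStatement → Contract.LStatement`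
  (`TopProof2.lStatement_of_top2` with `Red`, `Hecke`, `Kappa`, `H.Exit` plugged in);
* `lStatement_of_two  : SlopeMStatement → NZCoreStatement → Contract.LStatement`
  (the same with `DescExit.descStatement`): strand L hangs on the two `Prop`s
  `Cut.SlopeMStatement` and `Cut.NZCoreStatement` only.
-/

set_option autoImplicit false

open HahnSeries ModularCurve AlgebraicCurve

namespace Fermat.Agent.S44.L.Slope.Exit

open Fermat.Agent.S30 Fermat.Agent.S30.Producer Fermat.Agent.S44.Contract
open Fermat.Agent.S44.L.Top Fermat.Agent.S44.L.TopProof2 Fermat.Agent.S44.L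
open Fermat.Agent.S44.L.Slope

/-- **(SLOPE.EIS)** is a theorem. -/
theorem eisStatement : Cut.EisStatement := by
  intro p N' _ _ hp hp5 hpN A hA
  obtain ⟨D, Dbar, m, -, -, hDb, hD0, -, -, hR, hH⟩ :=
    EisRed.eisBar_slope_data Red.redStatement p N' hp hp5 hpN A hA
  exact ⟨D, Dbar, hDb, hD0, hR, hH⟩

/-- **(NZ.a)** is a theorem. -/
theorem thetaKerStatement : Cut.ThetaKerStatement := by
  intro p N _ hp A hA f hθ
  exact ThetaKer.exists_pow_of_theta_eq_zero p N hp A hA f hθ

/-- The Atkin–Lehner swap exists. -/
theorem swapStatement : Cut.SwapStatement := by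
  intro N ℓ _ _ hℓ hℓN
  obtain ⟨w, h1, h2, h3, -⟩ := Fermat.Agent.S37.SwapGal.exists_swap_gal_j N ℓ hℓ hℓN
  exact ⟨w, h1, h2, h3⟩

/-- **(NZ.b)** is a theorem. -/
theorem thetaSwapStatement : Cut.ThetaSwapStatement := by
  intro P N' _ _ W hpN A hA ι hι w hwα hwβ hww Q hQ f f₀ hf h₀
  exact NormRed.theta_zero_iff P N' W hpN A hA ι hι w hwα hwβ hww Q hQ hf h₀

/-- **(L.SLOPE) from the two slope bricks of the cut.** -/
theorem slopeStatement2_of_core (hDesc : Cut.DescStatement) (hM : Cut.SlopeMStatement) :
    SlopeStatement2 :=
  Cut.slopeStatement2_of_cut eisStatement hDesc hM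

/-- **(L.NZ) from the one open brick of the cut.** -/
theorem nzStatement_of_core (hCore : Cut.NZCoreStatement) : NZStatement :=
  Cut.nzStatement_of_cut Red.redStatement thetaKerStatement swapStatement thetaSwapStatement hCore

/-- **Strand L from the three bricks of the cut.** -/
theorem lStatement_of_core (hDesc : Cut.DescStatement) (hM : Cut.SlopeMStatement)
    (hCore : Cut.NZCoreStatement) : LStatement :=
  lStatement_of_top2 Red.redStatement Hecke.heckeStatement Kappa.kappaStatement
    Fermat.Agent.S44.H.Exit.hDivStatement
    (Cut.slopeStatement2_of_cut eisStatement hDesc hM)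
    (Cut.nzStatement_of_cut Red.redStatement thetaKerStatement swapStatement thetaSwapStatement
      hCore)

/-- **Strand L from the two open `Prop`s of the cut** (`Cut.DescStatement` is the theorem
`DescExit.descStatement`). -/
theorem lStatement_of_two (hM : Cut.SlopeMStatement) (hCore : Cut.NZCoreStatement) :
    LStatement :=
  lStatement_of_core DescExit.descStatement hM hCore

end Fermat.Agent.S44.L.Slope.Exit
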