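import Mathlib
import Fermat.Agent.S44.L.Slope.Loc

/-!
# PROGRAM MR (S44), strand L: the chart-level slope form, POINTWISE

`Loc.SlopeLocStatement` quantifies over all the data of `Cut.SlopeMStatement`.  A case split
(Eisenstein / split, `Alt/Cases`) needs the same seam for ONE pair `(f, D̄)`:

* `LocForm p M A h4 f Db` : the conclusion of `Loc.SlopeLocStatement` for one pair
  `f, Db : redField M A` — two abstract charts `r : C → redField M A`, `r' : C' → redField M A`
  and `δ ∈ ℤ` with the clauses (FIN), (CUSP), (INF).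
* `slope_of_locForm` : `LocForm p M A h4 f Db` gives the conclusion of `Cut.SlopeMStatement`
  for `(f, Db)`: `p ∣ ord_w f` at the cusps and ONE `δ` with `p ∣ ord_w (f^12 D̄^(-δ))` at the
  finite places.  No point of the Frey curve, no embedding `ι` occurs.
* `slopeLocStatement_iff` : `Loc.SlopeLocStatement` is `LocForm` for all data (`Iff.rfl`).
* `LocForm.of_fin_cusp_inf` : the constructor with the chart package as explicit arguments.
-/

set_option autoImplicit false
set_option linter.style.haveILetI false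

open WeierstrassCurve WeierstrassCurve.Affine WeierstrassCurve.Affine.Point
open HahnSeries ModularCurve AlgebraicCurve

namespace Fermat.Agent.S44.L.Slope.LocPt

open Fermat.Agent.S30 Fermat.Agent.S30.Producer Fermat.Agent.S44.Contract
open Fermat.Agent.S44.L.Top Fermat.Agent.S44.L.TopProof2 Fermat.Agent.S44.L
open Fermat.Agent.S44.L.Slope.Loc

local notation "Qb" => AlgebraicClosure ℚ

/-- **The chart-level local forms of one pair `(f, D̄)`** (the conclusion of
`Loc.SlopeLocStatement`). -/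
def LocForm (p M : ℕ) [NeZero M] (A : ValuationSubring Qb) (h4 : 4 ∣ M)
    (f Db : redField M A) : Prop :=
  ∃ (κ₀ : Subfield (redField M A)) (C : Type) (_ : CommRing C) (r : C →+* redField M A)
    (C' : Type) (_ : CommRing C') (r' : C' →+* redField M A) (δ : ℤ),
    (∀ s ∈ κ₀, ∃ e : IsLocalRing.ResidueField A,
      ((s : redField M A) : LaurentSeries (IsLocalRing.ResidueField A)) = HahnSeries.C e) ∧
    -- the finite chart
    (∀ s ∈ κ₀, ∃ c : C, r c = s) ∧ (∃ c : C, r c = CentreU4.ub M A h4) ∧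
    (∀ c : C, IsIntegral ↥(Algebra.adjoin κ₀ {CentreU4.ub M A h4}) (r c)) ∧
    -- the chart at infinity
    (∀ s ∈ κ₀, ∃ c : C', r' c = s) ∧ (∃ c : C', r' c = (CentreU4.ub M A h4)⁻¹) ∧
    (∀ c : C', IsIntegral ↥(Algebra.adjoin κ₀ {(CentreU4.ub M A h4)⁻¹}) (r' c)) ∧
    -- (FIN) non-cuspidal closed points of the finite chart
    (∀ y : Ideal C, y.IsMaximal → RingHom.ker r ≤ y →
      (∀ c : C, r c = CentreU4.ub M A h4 → c ∉ y) →
      (∀ c : C, r c = CentreU4.ub M A h4 + 16 → c ∉ y) →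
      ∃ (τ h h' : redField M A) (j e : ℤ), τ ≠ 0 ∧ (p : ℤ) ∣ 12 * j - δ * e ∧
        UnitAt r y f (τ ^ j * h ^ p) ∧ UnitAt r y Db (τ ^ e * h' ^ p)) ∧
    -- (CUSP) the cusps `0`, `-16` of the `u₄`-line
    (∀ y : Ideal C, y.IsMaximal → RingHom.ker r ≤ y →
      ((∀ c : C, r c = CentreU4.ub M A h4 → c ∈ y) ∨
        (∀ c : C, r c = CentreU4.ub M A h4 + 16 → c ∈ y)) →
      ∃ h : redField M A, UnitAt r y f (h ^ p)) ∧
    -- (INF) the cusp `∞` of the `u₄`-line
    (∀ y : Ideal C', y.IsMaximal → RingHom.ker r' ≤ y →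
      (∀ c : C', r' c = (CentreU4.ub M A h4)⁻¹ → c ∈ y) →
      ∃ h : redField M A, UnitAt r' y f (h ^ p))

/-- `Loc.SlopeLocStatement` is `LocForm` for all the data of `Cut.SlopeMStatement`. -/
theorem slopeLocStatement_iff :
    Loc.SlopeLocStatement ↔
      ∀ (P : FreyPackage) (N' M : ℕ) [NeZero N'] [NeZero M] [NeZero P.p] (W : WeierstrassCurve ℤ)
        (h4 : 4 ∣ M), M = 4 * N' → ¬ P.p ∣ N' → Squarefree N' →
        ∀ A : ValuationSubring Qb, A.LiesOverPrime P.p →
        ∀ ι : (P.freyCurve⁄Qb).Point → FN (N' * P.p), IsNewEmb P N' W ι →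
        ∀ (T R : (P.freyCurve⁄Qb).Point) (ζ b : Qb), EShapeData P A T R ζ b →
        ∀ f Db : redField M A,
          RedAt (N' * P.p) A (ι R) (f : LaurentSeries (IsLocalRing.ResidueField A)) →
          (Db : LaurentSeries (IsLocalRing.ResidueField A))
            = EisFormal.deltaL (IsLocalRing.ResidueField A)
              * (EisFormal.deltaL (IsLocalRing.ResidueField A) ^ P.p)⁻¹ →
          LocForm P.p M A h4 f Db :=
  Iff.rfl

/-- The constructor of `LocForm` with the chart package as explicit arguments. -/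
theorem LocForm.of_fin_cusp_inf {p M : ℕ} [NeZero M] {A : ValuationSubring Qb} {h4 : 4 ∣ M}
    {f Db : redField M A} (κ₀ : Subfield (redField M A))
    (hκ₀ : ∀ s ∈ κ₀, ∃ e : IsLocalRing.ResidueField A,
      ((s : redField M A) : LaurentSeries (IsLocalRing.ResidueField A)) = HahnSeries.C e)
    {C : Type} [CommRing C] (r : C →+* redField M A)
    (hκr : ∀ s ∈ κ₀, ∃ c : C, r c = s) (hur : ∃ c : C, r c = CentreU4.ub M A h4)
    (hint : ∀ c : C, IsIntegral ↥(Algebra.adjoin κ₀ {CentreU4.ub M A h4}) (r c))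
    {C' : Type} [CommRing C'] (r' : C' →+* redField M A)
    (hκr' : ∀ s ∈ κ₀, ∃ c : C', r' c = s) (hur' : ∃ c : C', r' c = (CentreU4.ub M A h4)⁻¹)
    (hint' : ∀ c : C', IsIntegral ↥(Algebra.adjoin κ₀ {(CentreU4.ub M A h4)⁻¹}) (r' c))
    (δ : ℤ)
    (hfin : ∀ y : Ideal C, y.IsMaximal → RingHom.ker r ≤ y →
      (∀ c : C, r c = CentreU4.ub M A h4 → c ∉ y) →
      (∀ c : C, r c = CentreU4.ub M A h4 + 16 → c ∉ y) →
      ∃ (τ h h' : redField M A) (j e : ℤ), τ ≠ 0 ∧ (p : ℤ) ∣ 12 * j - δ * e ∧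
        UnitAt r y f (τ ^ j * h ^ p) ∧ UnitAt r y Db (τ ^ e * h' ^ p))
    (hcusp : ∀ y : Ideal C, y.IsMaximal → RingHom.ker r ≤ y →
      ((∀ c : C, r c = CentreU4.ub M A h4 → c ∈ y) ∨
        (∀ c : C, r c = CentreU4.ub M A h4 + 16 → c ∈ y)) →
      ∃ h : redField M A, UnitAt r y f (h ^ p))
    (hinf : ∀ y : Ideal C', y.IsMaximal → RingHom.ker r' ≤ y →
      (∀ c : C', r' c = (CentreU4.ub M A h4)⁻¹ → c ∈ y) →
      ∃ h : redField M A, UnitAt r' y f (h ^ p)) :
    LocForm p M A h4 f Db :=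
  ⟨κ₀, C, inferInstance, r, C', inferInstance, r', δ, hκ₀, hκr, hur, hint, hκr', hur', hint',
    hfin, hcusp, hinf⟩

/-- **The slope conclusion for one pair from its chart-level local forms.**  (The conclusion of
`Cut.SlopeMStatement`; no point of the Frey curve occurs.) -/
theorem slope_of_locForm {p M : ℕ} [NeZero M] {A : ValuationSubring Qb} (hp : p.Prime)
    (hp2 : p ≠ 2) (hA : A.LiesOverPrime p) (h4 : 4 ∣ M) {f Db : redField M A}
    (hloc : LocForm p M A h4 f Db) :
    (∀ w : ValuationSubring (redField M A), ¬ IsFinitePl M A w → PDivAt p w f) ∧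
      ∃ δ : ℤ, ∀ w : ValuationSubring (redField M A), IsFinitePl M A w →
        PDivAt p w (f ^ 12 * Db ^ (-δ)) := by
  obtain ⟨κ₀, C, instC, r, C', instC', r', δ, hκ₀, hκr, hur, hint, hκr', hur', hint', hfin,
    hcusp, hinf⟩ := hloc
  refine ⟨?_, δ, ?_⟩
  · -- the cusps
    intro w hw
    by_cases hu : CentreU4.ub M A h4 ∈ w
    · obtain ⟨y, hmax, hker, h1, h2, -, hc⟩ :=
        CentreU4.exists_centre_cusp hp hA hp2 h4 κ₀ hκ₀ w hw hu r hκr hur hint
      obtain ⟨h, a, b, ha, hb, hfab⟩ := hcusp y hmax hker hc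
      exact Centre.pDivAt_of_centre w r y hker h1 h2 f h a b ha hb hfab
    · obtain ⟨y, hmax, hker, h1, h2, -, hc⟩ :=
        CentreU4.exists_centre_inf hp hA h4 κ₀ hκ₀ w hu r' hκr' hur' hint'
      obtain ⟨h, a, b, ha, hb, hfab⟩ := hinf y hmax hker hc
      exact Centre.pDivAt_of_centre w r' y hker h1 h2 f h a b ha hb hfab
  · -- the finite places
    intro w hw
    by_cases htop : w = ⊤
    · rw [htop]
      exact ⟨f ^ 12 * Db ^ (-δ), 1, by rw [one_pow, mul_one], trivial, trivial⟩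
    · obtain ⟨y, hmax, hker, h1, h2, -, hcU, hcU16⟩ :=
        CentreU4.exists_centre_finite hp hA hp2 h4 κ₀ hκ₀ w htop hw r hκr hur hint
      obtain ⟨τ, h, h', j, e, hτ, ⟨m, hm⟩, hfU, hDU⟩ := hfin y hmax hker hcU hcU16
      obtain ⟨u, hu, hu', hfu⟩ := exists_unit_of_unitAt w r y hker h1 h2 hfU
      obtain ⟨u', hv, hv', hDu⟩ := exists_unit_of_unitAt w r y hker h1 h2 hDU
      rw [hfu, hDu, key_identity p hτ hm]
      exact TopLemmas.PDivAt.mul (TopLemmas.PDivAt.mul (TopLemmas.PDivAt.mul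
        (TopLemmas.PDivAt.pow (TopLemmas.PDivAt.of_unit hu hu') 12)
        (TopLemmas.PDivAt.zpow (TopLemmas.PDivAt.of_unit hv hv') (-δ)))
        (TopLemmas.PDivAt.pow_self _)) (TopLemmas.PDivAt.pow_self _)

/-- The slope conclusion in the binder shape of `Cut.SlopeMStatement` (`M = 4 N'`, the prime of
a Frey package): what a case of `Alt/Cases` has to prove, from `LocForm`. -/
theorem slope_of_locForm_frey (P : FreyPackage) {N' M : ℕ} [NeZero N'] (hM : M = 4 * N')
    {A : ValuationSubring Qb} (hA : A.LiesOverPrime P.p) {f Db : redField M A}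
    (hloc : ∀ (_ : NeZero M) (h4 : 4 ∣ M), LocForm P.p M A h4 f Db) :
    (∀ w : ValuationSubring (redField M A), ¬ IsFinitePl M A w → PDivAt P.p w f) ∧
      ∃ δ : ℤ, ∀ w : ValuationSubring (redField M A), IsFinitePl M A w →
        PDivAt P.p w (f ^ 12 * Db ^ (-δ)) := by
  have hM0 : NeZero M := ⟨by rw [hM]; exact mul_ne_zero (by norm_num) (NeZero.ne N')⟩
  have h4 : 4 ∣ M := by rw [hM]; exact dvd_mul_right 4 N'
  have hp2 : P.p ≠ 2 := by
    have := P.hp5
    omega
  exact slope_of_locForm P.pp hp2 hA h4 (hloc hM0 h4)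

end Fermat.Agent.S44.L.Slope.LocPt
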